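import Fermat.Agent.ThreeCubesReal.Finiteness
import Fermat.Agent.Root.SummaryRealDensity
import Mathlib.Topology.Order.IntermediateValue

/-!
# Real density on `x³ + y³ + z³ = r`

Rational points are dense on each real fibre with infinitely many of them, and those of one fibre
`x + y = t` meet good fibres `x + z = t'` with `t'` near any prescribed value.
-/

set_option autoImplicit false
set_option linter.style.haveILetI false

noncomputable section

open WeierstrassCurve Filter Topology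
open FA.ThreeRationalCubes (infinite_mordell infinite_richFibres richFibres)

namespace FA.ThreeCubesReal

/-- The good parameters: nonsingular fibres with infinitely many rational points. -/
def GoodFibre (r t : ℚ) : Prop := t ≠ 0 ∧ t ^ 3 ≠ 4 * r ∧ (section₁ r t).Infinite

theorem exists_goodFibre {r : ℚ} (hr : r ≠ 0) : ∃ t, GoodFibre r t := by
  have hfin : {t : ℚ | t ^ 3 = 4 * r}.Finite :=
    Set.Subsingleton.finite fun a ha b hb =>
      (Odd.strictMono_pow (by decide : Odd 3)).injective (ha.trans hb.symm)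
  obtain ⟨t, ⟨ht0, htinf⟩, ht⟩ := ((infinite_richFibres hr).sdiff hfin).nonempty
  refine ⟨t, ht0, ht, fun hs => htinf ((hs.image fun P => (P.1, t - P.1, P.2)).subset ?_)⟩
  rintro ⟨x, y, z⟩ ⟨h₁, h₂⟩
  obtain rfl : y = t - x := eq_sub_iff_add_eq'.2 h₂
  exact ⟨(x, z), h₁, rfl⟩

/-- **Density on a good fibre.** -/
theorem fibre_dense {r t : ℚ} (hg : GoodFibre r t) {x z : ℝ}
    (h : x ^ 3 + ((t : ℝ) - x) ^ 3 + z ^ 3 = r) {ε : ℝ} (hε : 0 < ε) :
    {P ∈ section₁ r t | |(P.1 : ℝ) - x| < ε ∧ |(P.2 : ℝ) - z| < ε}.Infinite := by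
  classical
  obtain ⟨ht, ht3, hinf⟩ := hg
  set k : ℚ := 432 * t ^ 3 * (4 * r - t ^ 3) with hk
  have hk0 : k ≠ 0 := mul_ne_zero (mul_ne_zero (by norm_num) (pow_ne_zero _ ht))
    (sub_ne_zero.2 (Ne.symm ht3))
  haveI hE : (⟨0, 0, 0, 0, k⟩ : WeierstrassCurve ℚ).IsElliptic := ⟨isUnit_iff_ne_zero.2 (by
    simp [WeierstrassCurve.Δ, WeierstrassCurve.b₂, WeierstrassCurve.b₄, WeierstrassCurve.b₆,
      WeierstrassCurve.b₈, hk0])⟩
  let f : ℚ × ℚ → ℚ × ℚ := fun P => (-12 * t * P.2, 36 * t ^ 2 * (2 * P.1 - t))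
  let g : ℚ × ℚ → ℚ × ℚ := fun Q => ((t + Q.2 / (36 * t ^ 2)) / 2, -Q.1 / (12 * t))
  have hf : ∀ P ∈ section₁ r t, (f P).2 ^ 2 = (f P).1 ^ 3 + 0 * (f P).1 + k := fun P hP => by
    simp only [section₁, Set.mem_ofPred_eq] at hP
    simp only [f, hk]
    linear_combination 1728 * t ^ 3 * hP
  have hns : ∀ P ∈ section₁ r t,
      (⟨0, 0, 0, 0, k⟩ : WeierstrassCurve ℚ).toAffine.Nonsingular (f P).1 (f P).2 := fun P hP =>
    Affine.equation_iff_nonsingular.mp ((Affine.equation_iff _ _).mpr (by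
      simp; linear_combination hf P hP))
  haveI : Infinite (section₁ r t) := hinf.to_subtype
  haveI : Infinite (⟨0, 0, 0, 0, k⟩ : WeierstrassCurve ℚ).toAffine.Point := by
    refine Infinite.of_injective (fun P : section₁ r t => .some _ _ (hns P.1 P.2)) fun P Q e => ?_
    simp only [Affine.Point.some.injEq, f] at e
    obtain ⟨e₁, e₂⟩ := e
    refine Subtype.ext (Prod.ext ?_ (mul_left_cancel₀ (mul_ne_zero (by norm_num) ht) e₁))
    have := mul_left_cancel₀ (mul_ne_zero (by norm_num) (pow_ne_zero _ ht)) e₂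
    linarith
  have hT : (0 : ℝ) < |12 * (t : ℝ)| :=
    abs_pos.2 (mul_ne_zero (by norm_num) (Rat.cast_ne_zero.2 ht))
  have hT2 : (0 : ℝ) < 72 * (t : ℝ) ^ 2 :=
    mul_pos (by norm_num) (sq_pos_of_ne_zero (Rat.cast_ne_zero.2 ht))
  have hd := FA.Summary.rationalPoints_dense_all (A := 0) (B := k)
    (x := -12 * (t : ℝ) * z) (y := 36 * (t : ℝ) ^ 2 * (2 * x - t))
    (by simpa using sq_pos_of_ne_zero hk0) (by
      simp only [hk]; push_cast; linear_combination 1728 * (t : ℝ) ^ 3 * h)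
    (ε := min (|12 * (t : ℝ)| * ε) (72 * (t : ℝ) ^ 2 * ε))
    (lt_min (mul_pos hT hε) (mul_pos hT2 hε))
  refine Set.infinite_of_injOn_mapsTo (f := g) ?_ ?_ hd
  · intro P _ Q _ e
    simp only [g, Prod.mk.injEq] at e
    obtain ⟨e₁, e₂⟩ := e
    field_simp at e₁ e₂
    exact Prod.ext (by linarith) (by linarith)
  · rintro ⟨X, Y⟩ ⟨hQ, hX, hY⟩
    simp only at hQ hX hY
    refine ⟨?_, ?_, ?_⟩
    · show _ = r
      simp only [g]
      simp only [hk] at hQ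
      field_simp
      linear_combination 373248 * t ^ 3 * hQ
    · have e : (((g (X, Y)).1 : ℚ) : ℝ) - x =
          ((Y : ℝ) - 36 * t ^ 2 * (2 * x - t)) / (72 * t ^ 2) := by
        simp only [g]; push_cast; field_simp; ring
      rw [e, abs_div, abs_of_pos hT2, div_lt_iff₀ hT2]
      exact (hY.trans_le (min_le_right _ _)).trans_le (by linarith)
    · have e : (((g (X, Y)).2 : ℚ) : ℝ) - z = -((X : ℝ) - -12 * t * z) / (12 * t) := by
        simp only [g]; push_cast; field_simp; ring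
      rw [e, abs_div, abs_neg, div_lt_iff₀ hT]
      exact (hX.trans_le (min_le_left _ _)).trans_le (by linarith)

open Polynomial in
theorem finite_ratios : {ρ : ℚ | ρ * (ρ - 8) ^ 3 + 256 * (ρ + 1) ^ 3 = 0 ∨ ρ = 8}.Finite := by
  let p : ℚ[X] := (X * (X - C 8) ^ 3 + C 256 * (X + C 1) ^ 3) * (X - C 8)
  refine (finite_setOfPred_isRoot (p := p) ?_).subset fun ρ hρ => ?_
  · refine mul_ne_zero (fun e => ?_) (X_sub_C_ne_zero 8)
    have := congrArg (eval 0) e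
    simp at this
  · show IsRoot p ρ
    simp only [Set.mem_ofPred_eq] at hρ
    simp [p, sub_eq_zero]
    exact hρ

theorem exists_cubic_root (a b c : ℝ) : ∃ u : ℝ, -u ^ 3 + a * u ^ 2 + b * u + c = 0 := by
  set M := |a| + |b| + |c| + 1 with hM
  have hM1 : 1 ≤ M := by linarith [abs_nonneg a, abs_nonneg b, abs_nonneg c]
  have hM2 : M ≤ M ^ 2 := by nlinarith
  have a1 : |a * M ^ 2| = |a| * M ^ 2 := by rw [abs_mul, abs_of_nonneg (sq_nonneg M)]
  have b1 : |b * M| ≤ |b| * M ^ 2 := by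
    rw [abs_mul, abs_of_nonneg (by linarith : (0 : ℝ) ≤ M)]
    exact mul_le_mul_of_nonneg_left hM2 (abs_nonneg b)
  have c1 : |c| ≤ |c| * M ^ 2 := le_mul_of_one_le_right (abs_nonneg c) (by nlinarith)
  have htop : (|a| + |b| + |c|) * M ^ 2 ≤ M ^ 3 := by
    rw [show M ^ 3 = M * M ^ 2 by ring]
    exact mul_le_mul_of_nonneg_right (by linarith) (sq_nonneg M)
  have h₁ := abs_le.1 (le_of_eq a1)
  have h₂ := abs_le.1 b1
  have h₃ := abs_le.1 c1
  obtain ⟨u, -, hu⟩ := intermediate_value_Icc' (show -M ≤ M by linarith)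
    (f := fun u : ℝ => -u ^ 3 + a * u ^ 2 + b * u + c) (by fun_prop)
    (show (0 : ℝ) ∈ Set.Icc _ _ from ⟨by linarith [h₁.2, h₂.2, h₃.2], by
      simp only [neg_sq, mul_neg]
      linarith [h₁.1, h₂.2, h₃.1, show (-M) ^ 3 = -M ^ 3 by ring]⟩)
  exact ⟨u, hu⟩

/-- **Good fibres lie everywhere.** -/
theorem goodFibre_dense {r : ℚ} (hr : r ≠ 0) (T : ℝ) {ε : ℝ} (hε : 0 < ε) :
    ∃ t : ℚ, |(t : ℝ) - T| < ε ∧ GoodFibre r t := by
  classical
  obtain ⟨t, hg⟩ := exists_goodFibre hr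
  have ht := hg.1
  -- a real point of the fibre with `x + z = T`
  obtain ⟨x, hx⟩ : ∃ x : ℝ, x ^ 3 + ((t : ℝ) - x) ^ 3 + (T - x) ^ 3 = r := by
    obtain ⟨u, hu⟩ := exists_cubic_root (3 * ((t : ℝ) + T)) (-3 * ((t : ℝ) ^ 2 + T ^ 2))
      ((t : ℝ) ^ 3 + T ^ 3 - r)
    exact ⟨u, by linear_combination hu⟩
  have hS := fibre_dense hg hx (half_pos hε)
  -- remove the finitely many bad points
  obtain ⟨c, hc⟩ : ∃ c : Finset ℚ, ∀ u : ℚ, u ^ 3 = 4 * r → u ∈ c := by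
    by_cases h : ∃ u : ℚ, u ^ 3 = 4 * r
    · obtain ⟨u, hu⟩ := h
      exact ⟨{u}, fun v hv => Finset.mem_singleton.2
        ((Odd.strictMono_pow (by decide : Odd 3)).injective (hv.trans hu.symm))⟩
    · exact ⟨∅, fun v hv => absurd ⟨v, hv⟩ h⟩
  set bad : Set (ℚ × ℚ) := {P ∈ section₁ r t | P.1 + P.2 = 0} ∪
    (⋃ u ∈ (c : Set ℚ), {P ∈ section₁ r t | P.1 + P.2 = u}) ∪
    {P ∈ section₁ r t | P.1 = P.2} ∪ {P ∈ section₁ r t | P.1 = t} ∪
    ⋃ ρ ∈ {ρ : ℚ | ρ * (ρ - 8) ^ 3 + 256 * (ρ + 1) ^ 3 = 0 ∨ ρ = 8},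
      {P ∈ section₁ r t | (P.1 + P.2) ^ 3 = 4 * r + 4 / ρ * (t - P.1) ^ 3} with hbad
  have hbadfin : bad.Finite :=
    ((((finite_sum_eq r t 0).union (c.finite_toSet.biUnion fun u _ => finite_sum_eq r t u)).union
      (finite_eq r t)).union (finite_fst r t t)).union
      (finite_ratios.biUnion fun ρ _ => finite_ratio ht _)
  obtain ⟨⟨X, Z⟩, ⟨hP, hX, hZ⟩, hnb⟩ := (hS.sdiff hbadfin).nonempty
  refine ⟨X + Z, ?_, ?_⟩
  · push_cast
    rw [abs_lt] at hX hZ ⊢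
    simp only at hX hZ
    constructor <;> linarith [hX.1, hX.2, hZ.1, hZ.2]
  simp only [hbad, Set.mem_union, Set.mem_iUnion, Finset.mem_coe, Set.mem_ofPred_eq,
    not_or, not_exists] at hnb
  obtain ⟨⟨⟨⟨n₁, n₂⟩, n₃⟩, n₄⟩, n₅⟩ := hnb
  have hP' : X ^ 3 + (t - X) ^ 3 + Z ^ 3 = r := hP
  set w := X + Z with hw
  have hw0 : w ≠ 0 := fun e => n₁ ⟨hP, e⟩
  have hw3 : w ^ 3 ≠ 4 * r := fun e => n₂ w (hc w e) ⟨hP, hw.symm⟩
  have hXZ : X ≠ Z := fun e => n₃ ⟨hP, e⟩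
  have hy : t - X ≠ 0 := fun e => n₄ ⟨hP, (sub_eq_zero.1 e).symm⟩
  refine ⟨hw0, hw3, ?_⟩
  set A := -4 * (t - X) ^ 3 with hA
  set B := 4 * r - w ^ 3 with hB
  have hB0 : B ≠ 0 := sub_ne_zero.2 (Ne.symm hw3)
  have hA0 : A ≠ 0 := mul_ne_zero (by norm_num) (pow_ne_zero _ hy)
  have hρ : ∀ ρ : ℚ, (ρ * (ρ - 8) ^ 3 + 256 * (ρ + 1) ^ 3 = 0 ∨ ρ = 8) → A ≠ ρ * B := by
    intro ρ hρ e
    have hρ0 : ρ ≠ 0 := fun e' => hA0 (by rw [e, e', zero_mul])
    refine n₅ ρ hρ ⟨hP, ?_⟩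
    rw [hA, hB] at e
    field_simp
    linear_combination e
  set k := 432 * w ^ 3 * B with hk
  have hinf := infinite_mordell (k := k) (x := -12 * w * (t - X)) (y := 36 * w ^ 2 * (X - Z))
    (mul_ne_zero (mul_ne_zero (by norm_num) (pow_ne_zero _ hw0)) hB0)
    (mul_ne_zero (mul_ne_zero (by norm_num) (pow_ne_zero _ hw0)) (sub_ne_zero.2 hXZ))
    (by rw [hk, hB, hw]; linear_combination 1728 * (X + Z) ^ 3 * hP')
    (by
      refine mul_ne_zero (mul_ne_zero (mul_ne_zero (by norm_num) hw0) hy) ?_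
      intro e
      exact hρ 8 (Or.inr rfl) (mul_left_cancel₀
        (mul_ne_zero (show (432 : ℚ) ≠ 0 by norm_num) (pow_ne_zero 3 hw0))
        (by rw [hA]; linear_combination e + 8 * hk)))
    (by
      intro e
      refine hρ (A / B) (Or.inl ?_) (div_mul_cancel₀ A hB0).symm
      have h4 : (432 * w ^ 3) ^ 4 * (A * (A - 8 * B) ^ 3 + 256 * B * (A + B) ^ 3) = 0 := by
        have hY : (36 * w ^ 2 * (X - Z)) ^ 2 = 432 * w ^ 3 * (A + B) := by
          rw [hA, hB, hw]; linear_combination 1728 * (X + Z) ^ 3 * hP'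
        have hX3 : (-12 * w * (t - X)) ^ 3 = 432 * w ^ 3 * A := by rw [hA]; ring
        rw [show (-12 * w * (t - X) * ((-12 * w * (t - X)) ^ 3 - 8 * k)) ^ 3 +
            256 * k * (36 * w ^ 2 * (X - Z)) ^ 6 =
            (-12 * w * (t - X)) ^ 3 * ((-12 * w * (t - X)) ^ 3 - 8 * k) ^ 3 +
            256 * k * ((36 * w ^ 2 * (X - Z)) ^ 2) ^ 3 by ring, hY, hX3, hk] at e
        linear_combination e
      field_simp
      linear_combination (mul_eq_zero.1 h4).resolve_left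
        (pow_ne_zero _ (mul_ne_zero (by norm_num) (pow_ne_zero _ hw0))))
  refine Set.infinite_of_injOn_mapsTo (f := fun Q : ℚ × ℚ =>
    ((w + Q.2 / (36 * w ^ 2)) / 2, -Q.1 / (12 * w))) ?_ ?_ hinf
  · intro P _ Q _ e
    simp only [Prod.mk.injEq] at e
    obtain ⟨e₁, e₂⟩ := e
    field_simp at e₁ e₂
    exact Prod.ext (by linarith) (by linarith)
  · rintro ⟨a, b⟩ hQ
    simp only [Set.mem_ofPred_eq] at hQ
    show _ = r
    rw [hk, hB] at hQ
    field_simp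
    linear_combination 373248 * w ^ 3 * hQ

/-- **Real density.** -/
theorem real_dense {r : ℚ} (hr : r ≠ 0) {x y z : ℝ} (h : x ^ 3 + y ^ 3 + z ^ 3 = r) {ε : ℝ}
    (hε : 0 < ε) :
    {P : ℚ × ℚ × ℚ | P.1 ^ 3 + P.2.1 ^ 3 + P.2.2 ^ 3 = r ∧
      |(P.1 : ℝ) - x| < ε ∧ |(P.2.1 : ℝ) - y| < ε ∧ |(P.2.2 : ℝ) - z| < ε}.Infinite := by
  set q : ℝ → ℝ := fun T => r - x ^ 3 - (T - x) ^ 3 with hq
  have hq0 : q (x + y) = z ^ 3 := by simp only [hq]; linear_combination -h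
  have hmono := Odd.strictMono_pow (R := ℝ) (by decide : Odd 3)
  have hmem : q (x + y) ∈ Set.Ioo ((z - ε / 2) ^ 3) ((z + ε / 2) ^ 3) := by
    rw [hq0]
    exact ⟨hmono (by linarith), hmono (by linarith)⟩
  obtain ⟨δ, hδ, hball⟩ := Metric.mem_nhds_iff.1 ((show Continuous q by fun_prop).continuousAt
    (isOpen_Ioo.mem_nhds hmem))
  obtain ⟨t, htT, hg⟩ := goodFibre_dense hr (x + y) (lt_min hδ (by linarith : (0 : ℝ) < ε / 4))
  have ht := hball (show (t : ℝ) ∈ Metric.ball (x + y) δ from by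
    rw [Metric.mem_ball, Real.dist_eq]; exact htT.trans_le (min_le_left _ _))
  simp only [Set.mem_preimage, Set.mem_Ioo] at ht
  obtain ⟨z', hz', hz'e⟩ := intermediate_value_Ioo (show z - ε / 2 ≤ z + ε / 2 by linarith)
    (f := fun u : ℝ => u ^ 3) (by fun_prop) ht
  simp only at hz'e
  refine Set.infinite_of_injOn_mapsTo (f := fun P : ℚ × ℚ => (P.1, t - P.1, P.2)) ?_ ?_
    (fibre_dense hg (x := x) (z := z') (by rw [hz'e]; simp only [hq]; ring)
      (by linarith : (0 : ℝ) < ε / 4))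
  · intro P _ Q _ e
    simp only [Prod.mk.injEq] at e
    exact Prod.ext e.1 e.2.2
  · rintro ⟨a, b⟩ ⟨hP, ha, hb⟩
    simp only at ha hb
    rw [abs_lt] at ha hb
    have hT := abs_lt.1 (htT.trans_le (min_le_right _ _))
    refine ⟨hP, ?_, ?_, ?_⟩
    · rw [abs_lt]; constructor <;> simp only <;> linarith [ha.1, ha.2]
    · simp only [Rat.cast_sub]
      rw [abs_lt]; constructor <;> linarith [ha.1, ha.2, hT.1, hT.2]
    · rw [abs_lt]; constructor <;> simp only <;> linarith [hb.1, hb.2, hz'.1, hz'.2]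

end FA.ThreeCubesReal
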