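import Fermat.Agent.ThreeRationalCubes.Density

/-!
# Curves `x + y = t` against the conditions for a good point of the fibration `x + z = t'`

Each condition for being bad meets `x³ + y³ + z³ = r`, `x + y = t` in finitely many points.
-/

set_option autoImplicit false
set_option linter.style.haveILetI false

noncomputable section

open Polynomial

namespace FA.ThreeCubesReal

/-- The points of the fibre, by the abscissa. -/
def section₁ (r t : ℚ) : Set (ℚ × ℚ) := {P | P.1 ^ 3 + (t - P.1) ^ 3 + P.2 ^ 3 = r}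

theorem finite_of_roots {r t : ℚ} {S : Set (ℚ × ℚ)} (hS : S ⊆ section₁ r t) {p : ℚ[X]}
    (hp : p ≠ 0) (h : ∀ P ∈ S, p.eval P.1 = 0) : S.Finite := by
  refine Set.Finite.of_finite_image ((finite_setOfPred_isRoot hp).subset ?_ :
    (Prod.fst '' S).Finite) ?_
  · rintro _ ⟨P, hP, rfl⟩
    exact h P hP
  · intro P hP Q hQ e
    have h₁ := hS hP
    have h₂ := hS hQ
    simp only [section₁, Set.mem_ofPred_eq] at h₁ h₂
    refine Prod.ext e ((Odd.strictMono_pow (by decide : Odd 3)).injective ?_)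
    show P.2 ^ 3 = Q.2 ^ 3
    rw [e] at h₁
    linear_combination h₁ - h₂

theorem finite_sum_eq (r t c : ℚ) :
    {P ∈ section₁ r t | P.1 + P.2 = c}.Finite := by
  refine finite_of_roots (fun P hP => hP.1) (p := Polynomial.X ^ 3 + (C t - Polynomial.X) ^ 3 +
    (C c - Polynomial.X) ^ 3 - C r) ?_ fun P hP => ?_
  · intro e
    have k := fun v : ℚ => congrArg (eval v) e
    have k0 := k 0; have k1 := k 1; have k2 := k 2; have k3 := k 3
    simp at k0 k1 k2 k3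
    linarith
  · obtain ⟨h, e⟩ := hP
    simp only [section₁, Set.mem_ofPred_eq] at h
    simp
    rw [show c - P.1 = P.2 by linear_combination -e]
    linear_combination h

theorem finite_eq (r t : ℚ) : {P ∈ section₁ r t | P.1 = P.2}.Finite := by
  refine finite_of_roots (fun P hP => hP.1) (p := C 2 * Polynomial.X ^ 3 +
    (C t - Polynomial.X) ^ 3 - C r) ?_ fun P hP => ?_
  · intro e
    have k := fun v : ℚ => congrArg (eval v) e
    have k0 := k 0; have k1 := k 1; have k2 := k 2; have k3 := k 3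
    simp at k0 k1 k2 k3
    linarith
  · obtain ⟨h, e⟩ := hP
    simp only [section₁, Set.mem_ofPred_eq] at h
    simp
    rw [← e] at h
    linear_combination h

theorem finite_fst (r t c : ℚ) : {P ∈ section₁ r t | P.1 = c}.Finite :=
  finite_of_roots (fun P hP => hP.1) (p := Polynomial.X - C c) (X_sub_C_ne_zero c) fun P hP => by
    simp [hP.2]

/-- The polynomial of the abscissae with `(x + z)³ = 4 r + a (t - x)³`. -/
def badPoly (r t a : ℚ) : ℚ[X] :=
  (C (-3 * t) * X ^ 2 + C (3 * t ^ 2) * X + C (r - t ^ 3)) *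
      (C (2 - a) * X ^ 3 + C (3 * a * t + 3 * t) * X ^ 2 + C (-3 * a * t ^ 2 - 3 * t ^ 2) * X +
        C (3 * r + (a + 1) * t ^ 3)) ^ 3 -
    X ^ 3 * (C (-a - 1) * X ^ 3 + C (3 * a * t - 6 * t) * X ^ 2 +
      C (-3 * a * t ^ 2 + 6 * t ^ 2) * X + C (6 * r + (a - 2) * t ^ 3)) ^ 3

theorem coeff_top (p : ℚ[X]) {n : ℕ} (h : p.natDegree ≤ n) (q : ℚ[X]) {m : ℕ}
    (h' : q.natDegree ≤ m) : (p * q).coeff (n + m) = p.coeff n * q.coeff m :=
  coeff_mul_add_eq_of_natDegree_le h h'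

theorem badPoly_ne_zero {r t : ℚ} (ht : t ≠ 0) (a : ℚ) : badPoly r t a ≠ 0 := by
  intro e
  have d₁ : (C (-3 * t) * X ^ 2 + C (3 * t ^ 2) * X + C (r - t ^ 3)).natDegree ≤ 2 := by
    compute_degree
  have d₂ : (C (2 - a) * X ^ 3 + C (3 * a * t + 3 * t) * X ^ 2 +
      C (-3 * a * t ^ 2 - 3 * t ^ 2) * X + C (3 * r + (a + 1) * t ^ 3)).natDegree ≤ 3 := by
    compute_degree
  have d₃ : (C (-a - 1) * X ^ 3 + C (3 * a * t - 6 * t) * X ^ 2 +
      C (-3 * a * t ^ 2 + 6 * t ^ 2) * X + C (6 * r + (a - 2) * t ^ 3)).natDegree ≤ 3 := by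
    compute_degree
  by_cases ha : a = -1
  · subst ha
    have d₃' : (C (-(-1 : ℚ) - 1) * X ^ 3 + C (3 * (-1) * t - 6 * t) * X ^ 2 +
        C (-3 * (-1) * t ^ 2 + 6 * t ^ 2) * X + C (6 * r + (-1 - 2) * t ^ 3)).natDegree ≤ 2 := by
      rw [show (-(-1 : ℚ) - 1) = 0 by norm_num, C_0, zero_mul, zero_add]
      compute_degree
    have h := congrArg (fun p : ℚ[X] => p.coeff (2 + 3 * 3)) e
    simp only [badPoly, coeff_sub, coeff_zero] at h
    rw [coeff_top _ d₁ _ (natDegree_pow_le_of_le 3 d₂),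
      coeff_pow_of_natDegree_le d₂,
      coeff_eq_zero_of_natDegree_lt (lt_of_le_of_lt
        (natDegree_mul_le.trans (Nat.add_le_add (natDegree_X_pow_le 3)
          (natDegree_pow_le_of_le 3 d₃')))
        (by norm_num))] at h
    simp only [coeff_add, coeff_C_mul, coeff_X_pow, coeff_X, coeff_C] at h
    norm_num at h
    exact ht (by linarith)
  · have h := congrArg (fun p : ℚ[X] => p.coeff (3 + 3 * 3)) e
    simp only [badPoly, coeff_sub, coeff_zero] at h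
    rw [coeff_eq_zero_of_natDegree_lt (lt_of_le_of_lt
        (natDegree_mul_le.trans (Nat.add_le_add d₁ (natDegree_pow_le_of_le 3 d₂))) (by norm_num)),
      coeff_top _ (natDegree_X_pow_le 3) _ (natDegree_pow_le_of_le 3 d₃),
      coeff_pow_of_natDegree_le d₃] at h
    simp only [coeff_add, coeff_C_mul, coeff_X_pow, coeff_X, coeff_C] at h
    norm_num at h
    exact ha (by linarith)

theorem finite_ratio {r t : ℚ} (ht : t ≠ 0) (a : ℚ) :
    {P ∈ section₁ r t | (P.1 + P.2) ^ 3 = 4 * r + a * (t - P.1) ^ 3}.Finite := by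
  refine finite_of_roots (fun P hP => hP.1) (badPoly_ne_zero (r := r) ht a) ?_
  rintro ⟨x, z⟩ ⟨h, e⟩
  simp only [section₁, Set.mem_ofPred_eq] at h
  simp only at e
  -- `z (D + 3 x³) = x (3 Q + D)` with `Q = z³` and `D = 3 x z² + 3 x² z`
  have hQ : -3 * t * x ^ 2 + 3 * t ^ 2 * x + (r - t ^ 3) = z ^ 3 := by linear_combination -h
  have hD : (2 - a) * x ^ 3 + (3 * a * t + 3 * t) * x ^ 2 + (-3 * a * t ^ 2 - 3 * t ^ 2) * x +
      (3 * r + (a + 1) * t ^ 3) = 3 * x * z ^ 2 + 3 * x ^ 2 * z + 3 * x ^ 3 := by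
    linear_combination -e + h
  have hE : (-a - 1) * x ^ 3 + (3 * a * t - 6 * t) * x ^ 2 + (-3 * a * t ^ 2 + 6 * t ^ 2) * x +
      (6 * r + (a - 2) * t ^ 3) = 3 * z ^ 3 + 3 * x * z ^ 2 + 3 * x ^ 2 * z := by
    linear_combination -e - 2 * h
  simp [badPoly]
  simp only [neg_mul] at hQ hD hE
  rw [show -(3 * t * x ^ 2) + 3 * t ^ 2 * x + (r - t ^ 3) = z ^ 3 by linear_combination hQ]
  linear_combination z ^ 3 * ((2 - a) * x ^ 3 + (3 * a * t + 3 * t) * x ^ 2 +
      (-(3 * a * t ^ 2) - 3 * t ^ 2) * x + (3 * r + (a + 1) * t ^ 3)) ^ 2 * hD +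
    z ^ 3 * ((2 - a) * x ^ 3 + (3 * a * t + 3 * t) * x ^ 2 +
      (-(3 * a * t ^ 2) - 3 * t ^ 2) * x + (3 * r + (a + 1) * t ^ 3)) *
      (3 * x * z ^ 2 + 3 * x ^ 2 * z + 3 * x ^ 3) * hD +
    z ^ 3 * (3 * x * z ^ 2 + 3 * x ^ 2 * z + 3 * x ^ 3) ^ 2 * hD -
    x ^ 3 * (((-a - 1) * x ^ 3 + (3 * a * t - 6 * t) * x ^ 2 +
        (-(3 * a * t ^ 2) + 6 * t ^ 2) * x + (6 * r + (a - 2) * t ^ 3)) ^ 2 +
      ((-a - 1) * x ^ 3 + (3 * a * t - 6 * t) * x ^ 2 +
        (-(3 * a * t ^ 2) + 6 * t ^ 2) * x + (6 * r + (a - 2) * t ^ 3)) *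
        (3 * z ^ 3 + 3 * x * z ^ 2 + 3 * x ^ 2 * z) +
      (3 * z ^ 3 + 3 * x * z ^ 2 + 3 * x ^ 2 * z) ^ 2) * hE

end FA.ThreeCubesReal
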